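import Fermat.Agent.S16.DUIdeal.Defs

/-!
# S16, block DU-ideal, leaf (C): `q`-coefficients of `T_ℓ x` and `U_p x` for `x ∈ Λ`

FROZEN STATEMENTS (replace the `sorry`s only; add helper lemmas freely above them).

Maths. Unfold: `phi p (X ℓ) = latticeRestrictHom p ∅ (heckeEvalForms p 2 (X ℓ))`,
`heckeEvalForms p 2 (X ℓ) = heckeFormsGen p 2 ℓ` (`heckeEvalForms_heckeGen`, `heckeGen ℓ = X ℓ` by
`rfl`), which is `heckeAlgebra.T ..` if `¬ ℓ ∣ p` (i.e. `ℓ ≠ p`, both prime) and `heckeAlgebra.U ..`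
if `ℓ ∣ p` (`heckeEvalForms_heckeGen_of_not_dvd` / `_of_dvd`).  The underlying cusp form of
`act p (latticeRestrictHom p ∅ t) x` is `(t : End ℂ (CuspForm ..)) x` (by `rfl`: see
`latticeRestrict`, `latticeActionHom`, `latticeRestrictHom` in
`Fermat/Prelude/Def_CuspForm_HeckeLocal.lean`), i.e. `heckeTLin 2 _ _ x` resp. `heckeULin 2 _ x`.
Then `Fermat.Agent.S49.qCoeff_heckeTLin` / `qCoeff_heckeULin` (Fermat/Agent/S49/Forms.lean).
-/

set_option autoImplicit false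

open ModularCurve CuspForm

namespace Fermat.Agent.S16.DU

variable (p : ℕ) [Fact p.Prime]

theorem coeff_act_T (ℓ : Nat.Primes) (h : ¬ (ℓ : ℕ) ∣ p) (x : Lam p) :
    ((act p (phi p (MvPolynomial.X ℓ)) x : Lam p) : CuspForm (CongruenceSubgroup.Gamma0 p) 2) =
      heckeTLin 2 ℓ.2 h (x : CuspForm (CongruenceSubgroup.Gamma0 p) 2) := by
  have h1 : phi p (MvPolynomial.X ℓ) =
      latticeRestrictHom p ∅ (heckeAlgebra.T ℓ.2 h (Set.notMem_empty _)) := by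
    unfold phi
    rw [RingHom.comp_apply]
    exact congrArg _ (heckeEvalForms_heckeGen_of_not_dvd h)
  rw [h1]
  rfl

theorem coeff_act_U (ℓ : Nat.Primes) (h : (ℓ : ℕ) ∣ p) (x : Lam p) :
    ((act p (phi p (MvPolynomial.X ℓ)) x : Lam p) : CuspForm (CongruenceSubgroup.Gamma0 p) 2) =
      heckeULin 2 h (x : CuspForm (CongruenceSubgroup.Gamma0 p) 2) := by
  have h1 : phi p (MvPolynomial.X ℓ) =
      latticeRestrictHom p ∅ (heckeAlgebra.U ℓ.2 h (Set.notMem_empty _)) := by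
    unfold phi
    rw [RingHom.comp_apply]
    exact congrArg _ (heckeEvalForms_heckeGen_of_dvd h)
  rw [h1]
  rfl

theorem aco_act_phi_X_of_ne (ℓ : Nat.Primes) (hℓ : (ℓ : ℕ) ≠ p) (x : Lam p) (k : ℕ) :
    aco p (act p (phi p (MvPolynomial.X ℓ)) x) k =
      aco p x (k * ℓ) + (if (ℓ : ℕ) ∣ k then ((ℓ : ℕ) : ℂ) * aco p x (k / ℓ) else 0) := by
  have h : ¬ (ℓ : ℕ) ∣ p := fun hd =>
    hℓ ((Nat.prime_dvd_prime_iff_eq ℓ.2 (Fact.out : p.Prime)).mp hd)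
  unfold aco
  rw [coeff_act_T p ℓ h x]
  exact Fermat.Agent.S49.qCoeff_heckeTLin ℓ.2 h _ k

theorem aco_act_phi_X_self (x : Lam p) (k : ℕ) :
    aco p (act p (phi p (MvPolynomial.X ⟨p, Fact.out⟩)) x) k = aco p x (k * p) := by
  have h : ((⟨p, Fact.out⟩ : Nat.Primes) : ℕ) ∣ p := dvd_refl p
  unfold aco
  rw [coeff_act_U p ⟨p, Fact.out⟩ h x]
  exact Fermat.Agent.S49.qCoeff_heckeULin (Fact.out : p.Prime) h _ k

end Fermat.Agent.S16.DU
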