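import Mathlib
import Fermat.Statements.S16
import Fermat.Agent.S49.Forms

/-!
# S16, block DU-ideal (owner helper13): definitions

`p` prime, `Λ = CuspForm.intLattice p 2`, `T = heckeLatticeAlgebra p ∅ ⊆ End_ℤ Λ`,
`φ : ℤ[X_ℓ] → T` (`X_ℓ ↦ T_ℓ` for `ℓ ≠ p`, `X_p ↦ U_p`), `I = φ(eisensteinIdeal p)·T`.
-/

set_option autoImplicit false

open ModularCurve CuspForm

namespace Fermat.Agent.S16.DU

variable (p : ℕ) [Fact p.Prime]

/-- The lattice `Λ` of cusp forms of weight 2 and level `Γ₀(p)` with integral `q`-expansion. -/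
abbrev Lam : Type := ↥(CuspForm.intLattice p 2)

/-- The Hecke ring `T ⊆ End_ℤ Λ`. -/
abbrev TT : Type := ↥(heckeLatticeAlgebra p ∅)

/-- `φ : ℤ[X_ℓ] → T`. -/
noncomputable def phi : HeckeAlg →+* TT p :=
  (latticeRestrictHom p ∅).toRingHom.comp (heckeEvalForms p 2)

/-- The Eisenstein ideal of `T`. -/
noncomputable def II : Ideal (TT p) := Ideal.map (phi p) (eisensteinIdeal p)

/-- The evaluation `ℤ[X_ℓ] → ℤ` at the Eisenstein system (`X_ℓ ↦ 1 + ℓ` for `ℓ ≠ p`, `X_p ↦ 1`). -/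
noncomputable def ev : HeckeAlg →ₐ[ℤ] ℤ := MvPolynomial.aeval (eisensteinSystem p)

/-- `σ'(k) = ∑_{d ∣ k, p ∤ d} d`. -/
def sigmaPZ (k : ℕ) : ℤ := ∑ d ∈ k.divisors.filter (fun d => ¬ p ∣ d), (d : ℤ)

/-- The action of `t : T` on `x : Λ`, as a cusp form. -/
noncomputable def act (t : TT p) (x : Lam p) : Lam p :=
  (t : Module.End ℤ ↥(CuspForm.intLattice p 2)) x

/-- The `k`-th `q`-coefficient of an element of `Λ`. -/
noncomputable def aco (x : Lam p) (k : ℕ) : ℂ :=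
  ModularFormClass.qCoeff (⇑(x : CuspForm (CongruenceSubgroup.Gamma0 p) 2)) k

theorem S16_statement_iff :
    (Nat.card (↥(heckeLatticeAlgebra p ∅) ⧸
        Ideal.map ((latticeRestrictHom p ∅).toRingHom.comp (heckeEvalForms p 2))
          (eisensteinIdeal p)) = eisensteinNumerator p) ↔
      Nat.card (TT p ⧸ II p) = eisensteinNumerator p := Iff.rfl

end Fermat.Agent.S16.DU
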