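import Fermat.Agent.S16.DUIdeal.Defs

/-!
# S16, block DU-ideal, leaf (D): identities for `σ'(k) = ∑_{d ∣ k, p ∤ d} d`

FROZEN STATEMENTS (replace the `sorry`s only; add helper lemmas freely above them).

Maths. `σ'(kp) = σ'(k)`: a divisor `d` of `kp` with `p ∤ d` divides `k` (`p` prime, Euclid), and
`k = 0` is trivial (`Nat.divisors_zero`).  For a prime `ℓ ≠ p`: the divisors `d` of `kℓ` with
`p ∤ d` are the divisors of `k` together with the `ℓ d'`, `d' ∣ k`, the overlap being the `ℓ d''`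
with `d'' ∣ k/ℓ` (if `ℓ ∣ k`); hence `σ'(kℓ) = σ'(k) + ℓ σ'(k) - ℓ σ'(k/ℓ)`.  (Or: write
`k = ℓ^a m` with `ℓ ∤ m` and use multiplicativity; choose what formalises fastest.  `k = 0`: both
sides are `0`.)
-/

set_option autoImplicit false

open ModularCurve CuspForm

namespace Fermat.Agent.S16.DU

variable (p : ℕ) [Fact p.Prime]

/-- The summand `d ↦ d` if `p ∤ d`, `0` otherwise. -/
def sigma_F (d : ℕ) : ℤ := if p ∣ d then 0 else (d : ℤ)

omit [Fact p.Prime] in
theorem sigma_eq_sum (k : ℕ) : sigmaPZ p k = ∑ d ∈ k.divisors, sigma_F p d := by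
  unfold sigmaPZ sigma_F
  rw [Finset.sum_filter]
  refine Finset.sum_congr rfl fun d _ => ?_
  by_cases h : p ∣ d <;> simp [h]

theorem sigma_F_mul (ℓ : ℕ) (hℓ : ℓ.Prime) (hℓp : ℓ ≠ p) (d : ℕ) :
    sigma_F p (ℓ * d) = (ℓ : ℤ) * sigma_F p d := by
  have hp : p.Prime := Fact.out
  have h : p ∣ ℓ * d ↔ p ∣ d := by
    constructor
    · intro h
      rcases hp.dvd_mul.mp h with h | h
      · exact absurd ((Nat.prime_dvd_prime_iff_eq hp hℓ).mp h).symm hℓp
      · exact h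
    · exact fun h => Dvd.dvd.mul_left h ℓ
  unfold sigma_F
  by_cases h' : p ∣ d
  · simp [h, h']
  · simp [h, h']

theorem sigma_divisors_union (ℓ : ℕ) (hℓ : ℓ.Prime) (k : ℕ) (hk : k ≠ 0) :
    (k * ℓ).divisors = k.divisors ∪ k.divisors.image (fun e => ℓ * e) := by
  ext d
  simp only [Nat.mem_divisors, Finset.mem_union, Finset.mem_image, ne_eq, mul_eq_zero, hk,
    hℓ.ne_zero, or_self, not_false_eq_true, and_true]
  constructor
  · intro h
    by_cases hd : ℓ ∣ d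
    · obtain ⟨e, rfl⟩ := hd
      right
      refine ⟨e, ?_, rfl⟩
      rw [mul_comm k ℓ] at h
      exact Nat.dvd_of_mul_dvd_mul_left hℓ.pos h
    · left
      exact (Nat.Coprime.dvd_of_dvd_mul_right ((hℓ.coprime_iff_not_dvd.mpr hd).symm) h)
  · rintro (h | ⟨e, he, rfl⟩)
    · exact Dvd.dvd.mul_right h ℓ
    · rw [mul_comm k ℓ]
      exact Nat.mul_dvd_mul_left ℓ he

theorem sigma_divisors_inter (ℓ : ℕ) (hℓ : ℓ.Prime) (k : ℕ) (hk : k ≠ 0) :
    k.divisors ∩ k.divisors.image (fun e => ℓ * e) =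
      if ℓ ∣ k then (k / ℓ).divisors.image (fun e => ℓ * e) else ∅ := by
  split_ifs with h
  · obtain ⟨k', rfl⟩ := h
    have hk' : k' ≠ 0 := fun h0 => hk (by simp [h0])
    rw [Nat.mul_div_cancel_left _ hℓ.pos]
    ext d
    simp only [Nat.mem_divisors, Finset.mem_inter, Finset.mem_image, ne_eq, mul_eq_zero, hk',
      hℓ.ne_zero, or_self, not_false_eq_true, and_true]
    constructor
    · rintro ⟨h1, e, -, rfl⟩
      exact ⟨e, Nat.dvd_of_mul_dvd_mul_left hℓ.pos h1, rfl⟩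
    · rintro ⟨e, he, rfl⟩
      exact ⟨Nat.mul_dvd_mul_left ℓ he, e, Dvd.dvd.mul_left he ℓ, rfl⟩
  · ext d
    simp only [Nat.mem_divisors, Finset.mem_inter, Finset.mem_image, ne_eq, hk,
      not_false_eq_true, and_true, Finset.notMem_empty, iff_false, not_and, not_exists]
    rintro h1 e - rfl
    exact h (dvd_of_mul_right_dvd h1)

theorem sigma_sum_image (ℓ : ℕ) (hℓ : ℓ.Prime) (hℓp : ℓ ≠ p) (k : ℕ) :
    ∑ d ∈ k.divisors.image (fun e => ℓ * e), sigma_F p d = (ℓ : ℤ) * sigmaPZ p k := by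
  rw [Finset.sum_image (fun a _ b _ h => Nat.eq_of_mul_eq_mul_left hℓ.pos h), sigma_eq_sum,
    Finset.mul_sum]
  exact Finset.sum_congr rfl fun d _ => sigma_F_mul p ℓ hℓ hℓp d

theorem sigmaPZ_one : sigmaPZ p 1 = 1 := by
  have hp : p.Prime := Fact.out
  rw [sigma_eq_sum]
  simp [sigma_F, hp.ne_one]

theorem sigmaPZ_mul_self (k : ℕ) : sigmaPZ p (k * p) = sigmaPZ p k := by
  have hp : p.Prime := Fact.out
  rcases eq_or_ne k 0 with rfl | hk
  · simp
  · unfold sigmaPZ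
    refine Finset.sum_congr ?_ fun _ _ => rfl
    ext d
    simp only [Finset.mem_filter, Nat.mem_divisors, ne_eq, mul_eq_zero, hk, hp.ne_zero, or_self,
      not_false_eq_true, and_true, and_congr_left_iff]
    intro hd
    exact ⟨fun h => Nat.Coprime.dvd_of_dvd_mul_right ((hp.coprime_iff_not_dvd.mpr hd).symm) h,
      fun h => Dvd.dvd.mul_right h p⟩

theorem sigmaPZ_mul_prime (ℓ : ℕ) (hℓ : ℓ.Prime) (hℓp : ℓ ≠ p) (k : ℕ) :
    sigmaPZ p (k * ℓ) =
      (1 + (ℓ : ℤ)) * sigmaPZ p k - (if ℓ ∣ k then (ℓ : ℤ) * sigmaPZ p (k / ℓ) else 0) := by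
  rcases eq_or_ne k 0 with rfl | hk
  · simp [sigmaPZ]
  · have h := Finset.sum_union_inter (s₁ := k.divisors)
      (s₂ := k.divisors.image (fun e => ℓ * e)) (f := sigma_F p)
    rw [← sigma_divisors_union ℓ hℓ k hk, sigma_divisors_inter ℓ hℓ k hk, ← sigma_eq_sum,
      ← sigma_eq_sum, sigma_sum_image p ℓ hℓ hℓp k] at h
    split_ifs at h ⊢ with hd
    · rw [sigma_sum_image p ℓ hℓ hℓp] at h
      linarith
    · rw [Finset.sum_empty] at h
      linarith

end Fermat.Agent.S16.DU
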