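import Fermat.Agent.S16.DUIdeal.Surj
import Fermat.Agent.S16.DUIdeal.Coeff

/-!
# S16, block DU-ideal, leaf (E): the lower bound `n ∣ m` whenever `m·1 ∈ I`

FROZEN STATEMENT (replace the `sorry` only; add helper lemmas freely above it).
You may use the theorems of `DUIdeal/Surj.lean` and `DUIdeal/Coeff.lean` (sorried there until
their workers land them) and `Fermat.Agent.S49` (Fermat/Agent/S49/Forms.lean).

Maths. Put `D = 2 (p - 1)`.
1. `f₀ ∈ Λ` (`S49.mem_intLattice_of_forall_int`; coefficient `0` by `S49.qCoeff_index_zero`);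
   let `x₀ : Lam p`.
2. Call `y : Lam p` *divisible* if `∀ k, ∃ z : ℤ, aco p y k = D * z`.  Divisible elements are
   closed under `+`, `-`, integer multiples, and under `act p t` for every `t : TT p`
   (`y = D • y'` with `y' ∈ Λ` by `S49.exists_mem_intLattice_zsmul_eq`; `act p t` is `ℤ`-linear and
   `act p t y' ∈ Λ` has integral coefficients by `S49.exists_int_qCoeff_of_mem_intLattice`).
3. For every prime `ℓ`: `act p (phi p (X ℓ)) x₀ - (ev p (X ℓ)) • x₀` is divisible: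
   `ℓ ≠ p`: coefficient `k ≥ 1` is `a_{kℓ} + [ℓ ∣ k] ℓ a_{k/ℓ} - (1 + ℓ) a_k` with
   `a_j = (p-1)·2·r j - 24 s j`, and the `s`-part cancels by `hsl`; `ℓ = p`: `a_{kp} - a_k`, the
   `s`-part cancels by `hsp`; coefficient `0` is `0`.
4. By `MvPolynomial.induction_on`: `act p (phi p f) x₀ - (ev p f) • x₀` is divisible for all `f`
   (for `f * X ℓ` use `phi (f * X ℓ) = phi f * phi (X ℓ)`, step 3 and step 2).
5. `(m : T) ∈ I` ⇒ (`mem_II_iff`) `m = phi f` with `ev f = 0` ⇒ `m • x₀` divisible ⇒ at `k = 1`: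
   `m ((p-1)·2·r 1 - 24) ∈ 2(p-1)ℤ` ⇒ `(p - 1) ∣ 12 m` ⇒ `(p-1)/gcd(p-1,12) ∣ m`.
-/

set_option autoImplicit false

open ModularCurve CuspForm

namespace Fermat.Agent.S16.DU

variable (p : ℕ) [Fact p.Prime]

omit [Fact p.Prime] in
theorem lower_aco_add (x y : Lam p) (k : ℕ) : aco p (x + y) k = aco p x k + aco p y k :=
  Fermat.Agent.S49.qCoeff_add _ _ k

omit [Fact p.Prime] in
theorem lower_aco_sub (x y : Lam p) (k : ℕ) : aco p (x - y) k = aco p x k - aco p y k :=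
  Fermat.Agent.S49.qCoeff_sub _ _ k

omit [Fact p.Prime] in
theorem lower_aco_zsmul (c : ℤ) (x : Lam p) (k : ℕ) : aco p (c • x) k = (c : ℂ) * aco p x k :=
  Fermat.Agent.S49.qCoeff_zsmul c _ k

omit [Fact p.Prime] in
theorem lower_aco_zero (k : ℕ) : aco p (0 : Lam p) k = 0 :=
  Fermat.Agent.S49.qCoeff_zero_form k

omit [Fact p.Prime] in
theorem lower_aco_index_zero (x : Lam p) : aco p x 0 = 0 :=
  Fermat.Agent.S49.qCoeff_index_zero _

theorem lower_act_add (t u : TT p) (x : Lam p) : act p (t + u) x = act p t x + act p u x := rfl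

theorem lower_act_mul (t u : TT p) (x : Lam p) : act p (t * u) x = act p t (act p u x) := rfl

theorem lower_act_intCast (m : ℤ) (x : Lam p) : act p ((m : ℤ) : TT p) x = m • x := by
  unfold act
  rw [show (((m : ℤ) : TT p) : Module.End ℤ ↥(CuspForm.intLattice p 2)) =
    ((m : ℤ) : Module.End ℤ ↥(CuspForm.intLattice p 2)) from rfl]
  exact Module.End.intCast_apply m x

theorem lower_act_map_sub (t : TT p) (x y : Lam p) :
    act p t (x - y) = act p t x - act p t y := map_sub _ x y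

theorem lower_act_map_zsmul (t : TT p) (c : ℤ) (x : Lam p) :
    act p t (c • x) = c • act p t x := map_zsmul _ c x

/-- All `q`-coefficients are integers divisible by `2 (p - 1)`. -/
def lowerDiv (y : Lam p) : Prop :=
  ∀ k : ℕ, ∃ z : ℤ, aco p y k = ((2 * ((p : ℤ) - 1) * z : ℤ) : ℂ)

omit [Fact p.Prime] in
theorem lower_div_zero : lowerDiv p (0 : Lam p) := fun k =>
  ⟨0, by rw [lower_aco_zero]; simp⟩

omit [Fact p.Prime] in
theorem lower_div_add {x y : Lam p} (hx : lowerDiv p x) (hy : lowerDiv p y) :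
    lowerDiv p (x + y) := fun k => by
  obtain ⟨a, ha⟩ := hx k
  obtain ⟨b, hb⟩ := hy k
  exact ⟨a + b, by rw [lower_aco_add, ha, hb]; push_cast; ring⟩

omit [Fact p.Prime] in
theorem lower_div_zsmul (c : ℤ) {x : Lam p} (hx : lowerDiv p x) :
    lowerDiv p (c • x) := fun k => by
  obtain ⟨a, ha⟩ := hx k
  exact ⟨c * a, by rw [lower_aco_zsmul, ha]; push_cast; ring⟩

theorem lower_div_act (t : TT p) {y : Lam p} (hy : lowerDiv p y) : lowerDiv p (act p t y) := by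
  have hp : p.Prime := Fact.out
  have hp1 : 1 ≤ p := hp.one_le
  obtain ⟨g, hg, hyg⟩ := Fermat.Agent.S49.exists_mem_intLattice_zsmul_eq
    (y : CuspForm (CongruenceSubgroup.Gamma0 p) 2) (2 * (p - 1))
    (by have := hp.two_le; omega) (fun n => by
      obtain ⟨z, hz⟩ := hy n
      refine ⟨z, ?_⟩
      rw [show ModularFormClass.qCoeff (⇑(y : CuspForm (CongruenceSubgroup.Gamma0 p) 2)) n =
        aco p y n from rfl, hz]
      push_cast [Nat.cast_sub hp1]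
      ring)
  have hy' : y = ((2 * (p - 1) : ℕ) : ℤ) • (⟨g, hg⟩ : Lam p) := Subtype.ext hyg
  intro k
  obtain ⟨m, hm⟩ := Fermat.Agent.S49.exists_int_qCoeff_of_mem_intLattice
    (act p t (⟨g, hg⟩ : Lam p)).2 k
  refine ⟨m, ?_⟩
  rw [hy', lower_act_map_zsmul, lower_aco_zsmul,
    show aco p (act p t (⟨g, hg⟩ : Lam p)) k = (m : ℂ) from hm]
  push_cast [Nat.cast_sub hp1]
  ring

theorem lower_step3 (s : ℕ → ℤ)
    (hsp : ∀ k : ℕ, s (k * p) = s k)
    (hsl : ∀ ℓ : ℕ, ℓ.Prime → ℓ ≠ p → ∀ k : ℕ,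
      s (k * ℓ) = (1 + (ℓ : ℤ)) * s k - (if ℓ ∣ k then (ℓ : ℤ) * s (k / ℓ) else 0))
    (r : ℕ → ℤ) (x₀ : Lam p)
    (h : ∀ k : ℕ, 1 ≤ k → aco p x₀ k = ((((p : ℤ) - 1) * 2 * r k - 24 * s k : ℤ) : ℂ))
    (ℓ : Nat.Primes) :
    lowerDiv p (act p (phi p (MvPolynomial.X ℓ)) x₀ - (ev p (MvPolynomial.X ℓ)) • x₀) := by
  have hp : p.Prime := Fact.out
  have h0 : aco p x₀ 0 = 0 := lower_aco_index_zero p x₀
  by_cases hℓ : (ℓ : ℕ) = p
  · have hℓ' : ℓ = (⟨p, Fact.out⟩ : Nat.Primes) := Subtype.ext hℓ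
    have hev : ev p (MvPolynomial.X ℓ) = 1 :=
      (MvPolynomial.aeval_X (eisensteinSystem p) ℓ).trans
        (eisensteinSystem_of_dvd (by rw [hℓ]))
    have key : ∀ k : ℕ, aco p (act p (phi p (MvPolynomial.X ℓ)) x₀) k = aco p x₀ (k * p) := by
      intro k
      rw [hℓ']
      exact aco_act_phi_X_self p x₀ k
    intro k
    rw [lower_aco_sub, key, lower_aco_zsmul, hev]
    rcases Nat.eq_zero_or_pos k with rfl | hk
    · exact ⟨0, by rw [zero_mul, h0]; simp⟩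
    · have hkp : 1 ≤ k * p := Nat.mul_pos hk hp.pos
      refine ⟨r (k * p) - r k, ?_⟩
      rw [h (k * p) hkp, h k hk, hsp k]
      push_cast
      ring
  · have hnd : ¬ (ℓ : ℕ) ∣ p := fun hd => hℓ ((Nat.prime_dvd_prime_iff_eq ℓ.2 hp).mp hd)
    have hev : ev p (MvPolynomial.X ℓ) = 1 + ((ℓ : ℕ) : ℤ) :=
      (MvPolynomial.aeval_X (eisensteinSystem p) ℓ).trans (eisensteinSystem_of_not_dvd hnd)
    intro k
    rw [lower_aco_sub, aco_act_phi_X_of_ne p ℓ hℓ, lower_aco_zsmul, hev]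
    rcases Nat.eq_zero_or_pos k with rfl | hk
    · exact ⟨0, by simp [h0]⟩
    · have hkl : 1 ≤ k * (ℓ : ℕ) := Nat.mul_pos hk ℓ.2.pos
      have hs := hsl ℓ ℓ.2 hℓ k
      by_cases hd : (ℓ : ℕ) ∣ k
      · have hkd : 1 ≤ k / (ℓ : ℕ) := Nat.div_pos (Nat.le_of_dvd hk hd) ℓ.2.pos
        rw [if_pos hd] at hs ⊢
        refine ⟨r (k * ℓ) + (ℓ : ℕ) * r (k / ℓ) - (1 + (ℓ : ℕ)) * r k, ?_⟩
        rw [h _ hkl, h k hk, h _ hkd, hs]
        push_cast
        ring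
      · rw [if_neg hd] at hs ⊢
        refine ⟨r (k * ℓ) - (1 + (ℓ : ℕ)) * r k, ?_⟩
        rw [h _ hkl, h k hk, hs]
        push_cast
        ring

theorem lower_step4 (x₀ : Lam p)
    (h3 : ∀ ℓ : Nat.Primes,
      lowerDiv p (act p (phi p (MvPolynomial.X ℓ)) x₀ - (ev p (MvPolynomial.X ℓ)) • x₀))
    (f : HeckeAlg) : lowerDiv p (act p (phi p f) x₀ - (ev p f) • x₀) := by
  induction f using MvPolynomial.induction_on with
  | C a =>
    have h1 : phi p (MvPolynomial.C a) = ((a : ℤ) : TT p) := by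
      rw [show (MvPolynomial.C a : HeckeAlg) = ((a : ℤ) : HeckeAlg) from
        eq_intCast (MvPolynomial.C : ℤ →+* HeckeAlg) a, map_intCast]
    have h2 : ev p (MvPolynomial.C a) = a := by
      unfold ev
      rw [MvPolynomial.aeval_C]
      rfl
    rw [h1, h2, lower_act_intCast, sub_self]
    exact lower_div_zero p
  | add f g hf hg =>
    have : act p (phi p (f + g)) x₀ - (ev p (f + g)) • x₀ =
        (act p (phi p f) x₀ - (ev p f) • x₀) + (act p (phi p g) x₀ - (ev p g) • x₀) := by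
      rw [map_add, map_add, lower_act_add, add_smul]
      abel
    rw [this]
    exact lower_div_add p hf hg
  | mul_X f ℓ hf =>
    have : act p (phi p (f * MvPolynomial.X ℓ)) x₀ - (ev p (f * MvPolynomial.X ℓ)) • x₀ =
        act p (phi p f) (act p (phi p (MvPolynomial.X ℓ)) x₀ - (ev p (MvPolynomial.X ℓ)) • x₀) +
          (ev p (MvPolynomial.X ℓ)) • (act p (phi p f) x₀ - (ev p f) • x₀) := by
      rw [map_mul, map_mul, lower_act_mul, lower_act_map_sub, lower_act_map_zsmul, smul_sub,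
        smul_smul, mul_comm (ev p (MvPolynomial.X ℓ))]
      abel
    rw [this]
    exact lower_div_add p (lower_div_act p _ (h3 ℓ)) (lower_div_zsmul p _ hf)

theorem lower_arith (r1 z m : ℤ)
    (h : m * (((p : ℤ) - 1) * 2 * r1 - 24) = 2 * ((p : ℤ) - 1) * z) :
    (eisensteinNumerator p : ℤ) ∣ m := by
  have hp : p.Prime := Fact.out
  have hp1 : 1 ≤ p := hp.one_le
  have hdvd : ((p - 1 : ℕ) : ℤ) ∣ 12 * m := by
    refine ⟨m * r1 - z, ?_⟩
    push_cast [Nat.cast_sub hp1]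
    linarith
  have hnat : (p - 1) ∣ 12 * m.natAbs := by
    have := Int.natAbs_dvd_natAbs.mpr hdvd
    rwa [Int.natAbs_mul, Int.natAbs_natCast] at this
  have hg : 0 < Nat.gcd (p - 1) 12 := Nat.gcd_pos_of_pos_right _ (by norm_num)
  have hcop : Nat.Coprime ((p - 1) / Nat.gcd (p - 1) 12) (12 / Nat.gcd (p - 1) 12) :=
    Nat.coprime_div_gcd_div_gcd hg
  have h2 : (p - 1) / Nat.gcd (p - 1) 12 ∣ 12 / Nat.gcd (p - 1) 12 * m.natAbs := by
    obtain ⟨a, ha⟩ := Nat.gcd_dvd_left (p - 1) 12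
    obtain ⟨b, hb⟩ := Nat.gcd_dvd_right (p - 1) 12
    have e1 : (p - 1) / Nat.gcd (p - 1) 12 = a := Nat.div_eq_of_eq_mul_right hg ha
    have e2 : 12 / Nat.gcd (p - 1) 12 = b := Nat.div_eq_of_eq_mul_right hg hb
    rw [e1, e2]
    have h3 : Nat.gcd (p - 1) 12 * a ∣ Nat.gcd (p - 1) 12 * (b * m.natAbs) := by
      rw [← mul_assoc, ← ha, ← hb]
      exact hnat
    exact (Nat.mul_dvd_mul_iff_left hg).mp h3
  have h3 : (p - 1) / Nat.gcd (p - 1) 12 ∣ m.natAbs := hcop.dvd_of_dvd_mul_left h2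
  unfold eisensteinNumerator
  exact Int.natCast_dvd.mpr h3

theorem numerator_dvd_of_mem (s : ℕ → ℤ) (hs1 : s 1 = 1)
    (hsp : ∀ k : ℕ, s (k * p) = s k)
    (hsl : ∀ ℓ : ℕ, ℓ.Prime → ℓ ≠ p → ∀ k : ℕ,
      s (k * ℓ) = (1 + (ℓ : ℤ)) * s k - (if ℓ ∣ k then (ℓ : ℤ) * s (k / ℓ) else 0))
    (f₀ : CuspForm (CongruenceSubgroup.Gamma0 p) 2) (r : ℕ → ℤ)
    (h : ∀ k : ℕ, 1 ≤ k → ModularFormClass.qCoeff (⇑f₀) k =
      ((((p : ℤ) - 1) * 2 * r k - 24 * s k : ℤ) : ℂ))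
    (m : ℤ) (hm : ((m : ℤ) : TT p) ∈ II p) : (eisensteinNumerator p : ℤ) ∣ m := by
  have hf₀ : f₀ ∈ CuspForm.intLattice p 2 := by
    refine Fermat.Agent.S49.mem_intLattice_of_forall_int f₀ fun n => ?_
    rcases Nat.eq_zero_or_pos n with rfl | hn
    · exact ⟨0, by rw [Fermat.Agent.S49.qCoeff_index_zero]; simp⟩
    · exact ⟨_, h n hn⟩
  have h3 := lower_step3 p s hsp hsl r (⟨f₀, hf₀⟩ : Lam p) h
  obtain ⟨f, hf0, hfm⟩ := (mem_II_iff p _).mp hm
  have h4 := lower_step4 p (⟨f₀, hf₀⟩ : Lam p) h3 f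
  rw [hf0, hfm, zero_smul, sub_zero, lower_act_intCast] at h4
  obtain ⟨z, hz⟩ := h4 1
  rw [lower_aco_zsmul, show aco p (⟨f₀, hf₀⟩ : Lam p) 1 = _ from h 1 le_rfl, hs1] at hz
  refine lower_arith p (r 1) z m ?_
  have hz' : ((m * (((p : ℤ) - 1) * 2 * r 1 - 24 * 1) : ℤ) : ℂ) =
      ((2 * ((p : ℤ) - 1) * z : ℤ) : ℂ) := by
    rw [← hz]; push_cast; ring
  have := Int.cast_injective hz'
  linarith

end Fermat.Agent.S16.DU
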