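import Fermat.Agent.S16.DUIdeal.Surj
import Fermat.Agent.S16.DUIdeal.Coeff

/-!
# S16, block DU-ideal, leaf (E), independent version: the lower bound `n ∣ m` whenever `m·1 ∈ I`

Same statement as `Fermat.Agent.S16.DU.numerator_dvd_of_mem` (DUIdeal/Lower.lean), proved in the
namespace `Fermat.Agent.S16.DUAlt`.
-/

set_option autoImplicit false

open ModularCurve CuspForm

namespace Fermat.Agent.S16.DUAlt

open Fermat.Agent.S16.DU

variable (p : ℕ) [Fact p.Prime]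

theorem loweralt_aco_add (x y : Lam p) (k : ℕ) : aco p (x + y) k = aco p x k + aco p y k :=
  Fermat.Agent.S49.qCoeff_add _ _ k

theorem loweralt_aco_sub (x y : Lam p) (k : ℕ) : aco p (x - y) k = aco p x k - aco p y k :=
  Fermat.Agent.S49.qCoeff_sub _ _ k

theorem loweralt_aco_zsmul (n : ℤ) (x : Lam p) (k : ℕ) :
    aco p (n • x) k = (n : ℂ) * aco p x k :=
  Fermat.Agent.S49.qCoeff_zsmul n _ k

theorem loweralt_aco_zero (k : ℕ) : aco p (0 : Lam p) k = 0 :=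
  Fermat.Agent.S49.qCoeff_zero_form k

theorem loweralt_aco_int (x : Lam p) (k : ℕ) : ∃ m : ℤ, aco p x k = (m : ℂ) :=
  Fermat.Agent.S49.exists_int_qCoeff_of_mem_intLattice x.2 k

theorem loweralt_act_add (t : TT p) (x y : Lam p) :
    act p t (x + y) = act p t x + act p t y :=
  map_add (t : Module.End ℤ ↥(CuspForm.intLattice p 2)) x y

theorem loweralt_act_sub (t : TT p) (x y : Lam p) :
    act p t (x - y) = act p t x - act p t y :=
  map_sub (t : Module.End ℤ ↥(CuspForm.intLattice p 2)) x y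

theorem loweralt_act_zsmul (t : TT p) (n : ℤ) (x : Lam p) :
    act p t (n • x) = n • act p t x :=
  map_zsmul (t : Module.End ℤ ↥(CuspForm.intLattice p 2)) n x

theorem loweralt_act_mul (t u : TT p) (x : Lam p) :
    act p (t * u) x = act p t (act p u x) := rfl

theorem loweralt_act_add_left (t u : TT p) (x : Lam p) :
    act p (t + u) x = act p t x + act p u x := rfl

theorem loweralt_act_intCast (m : ℤ) (x : Lam p) :
    act p ((m : ℤ) : TT p) x = m • x := by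
  unfold act
  rw [SubringClass.coe_intCast, Module.End.intCast_apply]

/-- All `q`-coefficients are integers divisible by `D`. -/
def loweraltDiv (D : ℕ) (y : Lam p) : Prop :=
  ∀ k : ℕ, ∃ z : ℤ, aco p y k = (D : ℂ) * (z : ℂ)

theorem loweralt_div_zero (D : ℕ) : loweraltDiv p D 0 := fun k =>
  ⟨0, by rw [loweralt_aco_zero, Int.cast_zero, mul_zero]⟩

theorem loweralt_div_add (D : ℕ) {x y : Lam p} (hx : loweraltDiv p D x)
    (hy : loweraltDiv p D y) : loweraltDiv p D (x + y) := fun k => by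
  obtain ⟨a, ha⟩ := hx k
  obtain ⟨b, hb⟩ := hy k
  exact ⟨a + b, by rw [loweralt_aco_add, ha, hb, Int.cast_add, mul_add]⟩

theorem loweralt_div_zsmul (D : ℕ) (n : ℤ) {x : Lam p} (hx : loweraltDiv p D x) :
    loweraltDiv p D (n • x) := fun k => by
  obtain ⟨a, ha⟩ := hx k
  exact ⟨n * a, by rw [loweralt_aco_zsmul, ha, Int.cast_mul]; ring⟩

theorem loweralt_div_act (D : ℕ) (hD : D ≠ 0) (t : TT p) {y : Lam p}
    (hy : loweraltDiv p D y) : loweraltDiv p D (act p t y) := by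
  obtain ⟨g, hg, hyg⟩ := Fermat.Agent.S49.exists_mem_intLattice_zsmul_eq
    (y : CuspForm (CongruenceSubgroup.Gamma0 p) 2) D hD hy
  have hy' : y = (D : ℤ) • (⟨g, hg⟩ : Lam p) := Subtype.ext hyg
  intro k
  obtain ⟨a, ha⟩ := loweralt_aco_int p (act p t ⟨g, hg⟩) k
  refine ⟨a, ?_⟩
  rw [hy', loweralt_act_zsmul, loweralt_aco_zsmul, ha, Int.cast_natCast]

theorem loweralt_ev_X_of_ne (ℓ : Nat.Primes) (hℓ : (ℓ : ℕ) ≠ p) :
    ev p (MvPolynomial.X ℓ) = 1 + ((ℓ : ℕ) : ℤ) := by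
  have hp : p.Prime := Fact.out
  have h : ¬ (ℓ : ℕ) ∣ p := fun hd => hℓ ((Nat.prime_dvd_prime_iff_eq ℓ.2 hp).mp hd)
  unfold ev
  rw [MvPolynomial.aeval_X, eisensteinSystem_of_not_dvd h]

theorem loweralt_ev_X_self :
    ev p (MvPolynomial.X (⟨p, Fact.out⟩ : Nat.Primes)) = 1 := by
  unfold ev
  rw [MvPolynomial.aeval_X]
  exact eisensteinSystem_of_dvd (dvd_refl p)

/-- Step 3. -/
theorem loweralt_div_X (s : ℕ → ℤ)
    (hsp : ∀ k : ℕ, s (k * p) = s k)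
    (hsl : ∀ ℓ : ℕ, ℓ.Prime → ℓ ≠ p → ∀ k : ℕ,
      s (k * ℓ) = (1 + (ℓ : ℤ)) * s k - (if ℓ ∣ k then (ℓ : ℤ) * s (k / ℓ) else 0))
    (x₀ : Lam p) (r : ℕ → ℤ)
    (h : ∀ k : ℕ, aco p x₀ k = ((((p : ℤ) - 1) * 2 * r k - 24 * s k : ℤ) : ℂ))
    (ℓ : Nat.Primes) :
    loweraltDiv p (2 * (p - 1))
      (act p (phi p (MvPolynomial.X ℓ)) x₀ - (ev p (MvPolynomial.X ℓ)) • x₀) := by
  have hp : p.Prime := Fact.out
  have hD : ((2 * (p - 1) : ℕ) : ℂ) = 2 * ((p : ℂ) - 1) := by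
    rw [Nat.cast_mul, Nat.cast_sub hp.one_le]; simp
  intro k
  by_cases hℓ : (ℓ : ℕ) = p
  · have hℓ' : ℓ = ⟨p, Fact.out⟩ := Subtype.ext hℓ
    subst hℓ'
    refine ⟨r (k * p) - r k, ?_⟩
    rw [loweralt_aco_sub, loweralt_aco_zsmul, aco_act_phi_X_self, loweralt_ev_X_self,
      h, h, hsp, hD]
    push_cast
    ring
  · refine ⟨r (k * ℓ) + (if (ℓ : ℕ) ∣ k then ((ℓ : ℕ) : ℤ) * r (k / ℓ) else 0)
      - (1 + ((ℓ : ℕ) : ℤ)) * r k, ?_⟩
    rw [loweralt_aco_sub, loweralt_aco_zsmul, aco_act_phi_X_of_ne p ℓ hℓ,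
      loweralt_ev_X_of_ne p ℓ hℓ, h, h, h, hsl ℓ ℓ.2 hℓ k, hD]
    split_ifs
    · push_cast
      ring
    · push_cast
      ring

/-- Step 4. -/
theorem loweralt_div_all (s : ℕ → ℤ)
    (hsp : ∀ k : ℕ, s (k * p) = s k)
    (hsl : ∀ ℓ : ℕ, ℓ.Prime → ℓ ≠ p → ∀ k : ℕ,
      s (k * ℓ) = (1 + (ℓ : ℤ)) * s k - (if ℓ ∣ k then (ℓ : ℤ) * s (k / ℓ) else 0))
    (x₀ : Lam p) (r : ℕ → ℤ)
    (h : ∀ k : ℕ, aco p x₀ k = ((((p : ℤ) - 1) * 2 * r k - 24 * s k : ℤ) : ℂ))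
    (f : HeckeAlg) :
    loweraltDiv p (2 * (p - 1)) (act p (phi p f) x₀ - (ev p f) • x₀) := by
  have hp : p.Prime := Fact.out
  have hD0 : 2 * (p - 1) ≠ 0 := by
    have := hp.two_le
    omega
  induction f using MvPolynomial.induction_on with
  | C a =>
    have h1 : phi p (MvPolynomial.C a) = ((a : ℤ) : TT p) :=
      eq_intCast ((phi p).comp MvPolynomial.C) a
    have h2 : ev p (MvPolynomial.C a) = a := by
      unfold ev
      rw [MvPolynomial.aeval_C]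
      rfl
    rw [h1, h2, loweralt_act_intCast, sub_self]
    exact loweralt_div_zero p _
  | add f g hf hg =>
    have e : act p (phi p (f + g)) x₀ - (ev p (f + g)) • x₀ =
        (act p (phi p f) x₀ - (ev p f) • x₀) + (act p (phi p g) x₀ - (ev p g) • x₀) := by
      rw [map_add, map_add, loweralt_act_add_left, add_smul]
      abel
    rw [e]
    exact loweralt_div_add p _ hf hg
  | mul_X f ℓ hf =>
    have e : act p (phi p (f * MvPolynomial.X ℓ)) x₀ - (ev p (f * MvPolynomial.X ℓ)) • x₀ =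
        act p (phi p f)
          (act p (phi p (MvPolynomial.X ℓ)) x₀ - (ev p (MvPolynomial.X ℓ)) • x₀) +
        (ev p (MvPolynomial.X ℓ)) • (act p (phi p f) x₀ - (ev p f) • x₀) := by
      rw [map_mul, map_mul, loweralt_act_mul, loweralt_act_sub, loweralt_act_zsmul, smul_sub,
        smul_smul, mul_comm (ev p (MvPolynomial.X ℓ)) (ev p f)]
      abel
    rw [e]
    exact loweralt_div_add p _
      (loweralt_div_act p _ hD0 _ (loweralt_div_X p s hsp hsl x₀ r h ℓ))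
      (loweralt_div_zsmul p _ _ hf)

/-- Arithmetic: `(p - 1) ∣ 12 m` implies `(p - 1) / gcd (p - 1, 12) ∣ m`. -/
theorem loweralt_arith (n : ℕ) (hn : 0 < n) (m : ℤ) (h : (n : ℤ) ∣ 12 * m) :
    ((n / Nat.gcd n 12 : ℕ) : ℤ) ∣ m := by
  rw [Int.natCast_dvd]
  have h' : n ∣ 12 * m.natAbs := by
    have := Int.natCast_dvd.mp h
    rwa [Int.natAbs_mul] at this
  have hg : 0 < Nat.gcd n 12 := Nat.gcd_pos_of_pos_left 12 hn
  have hcop : Nat.Coprime (n / Nat.gcd n 12) (12 / Nat.gcd n 12) :=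
    Nat.coprime_div_gcd_div_gcd hg
  have hn' : n / Nat.gcd n 12 * Nat.gcd n 12 = n := Nat.div_mul_cancel (Nat.gcd_dvd_left n 12)
  have h12 : 12 / Nat.gcd n 12 * Nat.gcd n 12 = 12 := Nat.div_mul_cancel (Nat.gcd_dvd_right n 12)
  have h3 : n / Nat.gcd n 12 * Nat.gcd n 12 ∣
      (12 / Nat.gcd n 12 * m.natAbs) * Nat.gcd n 12 := by
    rw [hn']
    calc n ∣ 12 * m.natAbs := h'
      _ = (12 / Nat.gcd n 12 * m.natAbs) * Nat.gcd n 12 := by
        conv_lhs => rw [← h12]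
        ring
  have h4 : n / Nat.gcd n 12 ∣ 12 / Nat.gcd n 12 * m.natAbs :=
    Nat.dvd_of_mul_dvd_mul_right hg h3
  exact hcop.dvd_of_dvd_mul_left h4

theorem numerator_dvd_of_mem (s : ℕ → ℤ) (hs1 : s 1 = 1)
    (hsp : ∀ k : ℕ, s (k * p) = s k)
    (hsl : ∀ ℓ : ℕ, ℓ.Prime → ℓ ≠ p → ∀ k : ℕ,
      s (k * ℓ) = (1 + (ℓ : ℤ)) * s k - (if ℓ ∣ k then (ℓ : ℤ) * s (k / ℓ) else 0))
    (f₀ : CuspForm (CongruenceSubgroup.Gamma0 p) 2) (r : ℕ → ℤ)
    (h : ∀ k : ℕ, 1 ≤ k → ModularFormClass.qCoeff (⇑f₀) k =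
      ((((p : ℤ) - 1) * 2 * r k - 24 * s k : ℤ) : ℂ))
    (m : ℤ) (hm : ((m : ℤ) : TT p) ∈ II p) : (eisensteinNumerator p : ℤ) ∣ m := by
  have hp : p.Prime := Fact.out
  -- step 1
  have hf₀ : f₀ ∈ CuspForm.intLattice p 2 := by
    refine Fermat.Agent.S49.mem_intLattice_of_forall_int f₀ fun n => ?_
    rcases Nat.eq_zero_or_pos n with rfl | hn
    · exact ⟨0, by rw [Fermat.Agent.S49.qCoeff_index_zero, Int.cast_zero]⟩
    · exact ⟨_, h n hn⟩
  set x₀ : Lam p := ⟨f₀, hf₀⟩ with hx₀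
  -- modified coefficient sequences, valid also at `k = 0`
  set s' : ℕ → ℤ := fun k => if k = 0 then 0 else s k with hs'
  set r' : ℕ → ℤ := fun k => if k = 0 then 0 else r k with hr'
  have hx : ∀ k : ℕ, aco p x₀ k = ((((p : ℤ) - 1) * 2 * r' k - 24 * s' k : ℤ) : ℂ) := by
    intro k
    rcases Nat.eq_zero_or_pos k with rfl | hk
    · have : aco p x₀ 0 = 0 := Fermat.Agent.S49.qCoeff_index_zero f₀
      rw [this]
      simp [hs', hr']
    · have : aco p x₀ k = ModularFormClass.qCoeff (⇑f₀) k := rfl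
      rw [this, h k hk]
      simp [hs', hr', hk.ne']
  have hsp' : ∀ k : ℕ, s' (k * p) = s' k := by
    intro k
    rcases Nat.eq_zero_or_pos k with rfl | hk
    · simp [hs']
    · have : k * p ≠ 0 := Nat.mul_ne_zero hk.ne' hp.ne_zero
      simp only [hs', this, hk.ne', if_false]
      exact hsp k
  have hsl' : ∀ ℓ : ℕ, ℓ.Prime → ℓ ≠ p → ∀ k : ℕ,
      s' (k * ℓ) = (1 + (ℓ : ℤ)) * s' k - (if ℓ ∣ k then (ℓ : ℤ) * s' (k / ℓ) else 0) := by
    intro ℓ hℓ hℓp k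
    rcases Nat.eq_zero_or_pos k with rfl | hk
    · simp [hs']
    · have h1 : k * ℓ ≠ 0 := Nat.mul_ne_zero hk.ne' hℓ.ne_zero
      simp only [hs', h1, hk.ne', if_false]
      rw [hsl ℓ hℓ hℓp k]
      by_cases hd : ℓ ∣ k
      · have h2 : k / ℓ ≠ 0 := by
          obtain ⟨c, rfl⟩ := hd
          rw [Nat.mul_div_cancel_left c hℓ.pos]
          rintro rfl
          simp at hk
        simp only [hd, if_true, h2, if_false]
      · simp only [hd, if_false]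
  -- step 5
  obtain ⟨f, hf0, hfm⟩ := (mem_II_iff p _).mp hm
  have hdiv := loweralt_div_all p s' hsp' hsl' x₀ r' hx f
  rw [hf0, hfm, zero_smul, sub_zero, loweralt_act_intCast] at hdiv
  obtain ⟨z, hz⟩ := hdiv 1
  rw [loweralt_aco_zsmul, hx 1] at hz
  have hz' : m * (((p : ℤ) - 1) * 2 * r' 1 - 24 * s' 1) = ((2 * (p - 1) : ℕ) : ℤ) * z := by
    have : ((m * (((p : ℤ) - 1) * 2 * r' 1 - 24 * s' 1) : ℤ) : ℂ) =
        ((((2 * (p - 1) : ℕ) : ℤ) * z : ℤ) : ℂ) := by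
      rw [Int.cast_mul, hz]
      push_cast
      ring
    exact_mod_cast this
  have hs'1 : s' 1 = 1 := by simp [hs', hs1]
  rw [hs'1] at hz'
  have hcast : ((2 * (p - 1) : ℕ) : ℤ) = 2 * ((p : ℤ) - 1) := by
    rw [Nat.cast_mul, Nat.cast_sub hp.one_le]; simp
  rw [hcast] at hz'
  have hdvd : ((p - 1 : ℕ) : ℤ) ∣ 12 * m := by
    rw [Nat.cast_sub hp.one_le]
    refine ⟨m * r' 1 - z, ?_⟩
    push_cast
    linarith
  have hpos : 0 < p - 1 := by
    have := hp.two_le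
    omega
  exact loweralt_arith (p - 1) hpos m hdvd

end Fermat.Agent.S16.DUAlt
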