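import Fermat.Agent.S16.DUIdeal.Surj

/-!
# S16, block DU-ideal, leaf (B): `T / I ≅ ℤ / c`

FROZEN STATEMENTS (replace the `sorry`s only; add helper lemmas freely above them).
You may use the theorems of `DUIdeal/Surj.lean` (sorried there until their worker lands them).

Maths. `{m : ℤ | (m : T) ∈ I}` is an ideal of `ℤ` (`Ideal.comap (Int.castRingHom (TT p)) (II p)`),
hence `= cℤ` with `c` the `natAbs` of a generator (`ℤ` is a PID: `Submodule.IsPrincipal.generator`,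
`Int.natAbs`; or `Int.ideal_eq_span_natAbs...`).  The ring hom `ℤ → T ⧸ I` is surjective
(`phi_surjective` + `phi_sub_ev_mem`: every `t = phi f ≡ ev f`) with kernel `cℤ`, so
`T ⧸ I ≃+* ZMod c` (e.g. `ZMod.lift`/`ZMod.castHom` + `Ideal.Quotient.lift`, or
`RingHom.quotientKerEquivOfSurjective` and `Int.quotientSpanNatEquivZMod`), giving
`ψ := (that iso) ∘ Ideal.Quotient.mk I` with `ψ (phi f) = ev f` and
`Nat.card (T ⧸ I) = Nat.card (ZMod c) = c` (`Nat.card_zmod`, also for `c = 0`).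
-/

set_option autoImplicit false

open ModularCurve CuspForm

namespace Fermat.Agent.S16.DU

/-- General: the integers lying in an ideal of a commutative ring are the multiples of some
natural number. -/
theorem quot_aux_index {T : Type*} [CommRing T] (I : Ideal T) :
    ∃ c : ℕ, ∀ m : ℤ, ((m : ℤ) : T) ∈ I ↔ (c : ℤ) ∣ m := by
  set J : Ideal ℤ := Ideal.comap (Int.castRingHom T) I with hJ
  refine ⟨(Submodule.IsPrincipal.generator J).natAbs, fun m => ?_⟩
  have h1 : ((m : ℤ) : T) ∈ I ↔ m ∈ J := by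
    rw [hJ, Ideal.mem_comap]; rfl
  rw [h1, Int.natAbs_dvd, ← Ideal.mem_span_singleton, Ideal.span_singleton_generator]

/-- General: if every element of `T` is congruent to an integer modulo `I`, and the integers in
`I` are the multiples of `c`, then there is a ring hom `T → ZMod c` with kernel `I` sending
`t` to `m` whenever `t ≡ m mod I`. -/
theorem quot_aux_psi {T : Type*} [CommRing T] (I : Ideal T) (c : ℕ)
    (hc : ∀ m : ℤ, ((m : ℤ) : T) ∈ I ↔ (c : ℤ) ∣ m)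
    (hs : ∀ t : T, ∃ m : ℤ, t - ((m : ℤ) : T) ∈ I) :
    ∃ ψ : T →+* ZMod c, (∀ t : T, ψ t = 0 ↔ t ∈ I) ∧
      ∀ (t : T) (m : ℤ), t - ((m : ℤ) : T) ∈ I → ψ t = ((m : ℤ) : ZMod c) := by
  classical
  let g : ℤ →+* T ⧸ I := Int.castRingHom (T ⧸ I)
  have hg : ∀ m : ℤ, g m = Ideal.Quotient.mk I ((m : ℤ) : T) := fun m => by
    simp [g]
  have hgs : Function.Surjective g := by
    intro x
    obtain ⟨t, rfl⟩ := Ideal.Quotient.mk_surjective x
    obtain ⟨m, hm⟩ := hs t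
    exact ⟨m, by rw [hg]; exact (Ideal.Quotient.eq.mpr hm).symm⟩
  have hker : ∀ a : ℤ, a ∈ RingHom.ker g → Int.castRingHom (ZMod c) a = 0 := by
    intro a ha
    rw [RingHom.mem_ker, hg, Ideal.Quotient.eq_zero_iff_mem, hc] at ha
    simpa [ZMod.intCast_zmod_eq_zero_iff_dvd] using ha
  let e : (ℤ ⧸ RingHom.ker g) ≃+* T ⧸ I := RingHom.quotientKerEquivOfSurjective hgs
  let h : ℤ ⧸ RingHom.ker g →+* ZMod c :=
    Ideal.Quotient.lift (RingHom.ker g) (Int.castRingHom (ZMod c)) hker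
  let ψ : T →+* ZMod c :=
    h.comp ((e.symm : T ⧸ I →+* ℤ ⧸ RingHom.ker g).comp (Ideal.Quotient.mk I))
  have key : ∀ (t : T) (m : ℤ), t - ((m : ℤ) : T) ∈ I → ψ t = ((m : ℤ) : ZMod c) := by
    intro t m hm
    have h1 : Ideal.Quotient.mk I t = e (Ideal.Quotient.mk (RingHom.ker g) m) := by
      rw [Ideal.Quotient.eq.mpr hm, ← hg]
      rfl
    show h (e.symm (Ideal.Quotient.mk I t)) = _
    rw [h1, RingEquiv.symm_apply_apply]
    simp [h]
  refine ⟨ψ, fun t => ?_, key⟩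
  obtain ⟨m, hm⟩ := hs t
  rw [key t m hm, ZMod.intCast_zmod_eq_zero_iff_dvd, ← hc]
  constructor
  · intro h2
    have := I.add_mem hm h2
    simpa using this
  · intro h2
    have := I.sub_mem h2 hm
    simpa using this

/-- General: under the hypotheses of `quot_aux_psi`, `T ⧸ I` has `c` elements. -/
theorem quot_aux_card {T : Type*} [CommRing T] (I : Ideal T) (c : ℕ)
    (hc : ∀ m : ℤ, ((m : ℤ) : T) ∈ I ↔ (c : ℤ) ∣ m)
    (hs : ∀ t : T, ∃ m : ℤ, t - ((m : ℤ) : T) ∈ I) :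
    Nat.card (T ⧸ I) = c := by
  obtain ⟨ψ, h0, hm⟩ := quot_aux_psi I c hc hs
  have hsurj : Function.Surjective ψ := by
    intro z
    obtain ⟨m, rfl⟩ := ZMod.intCast_surjective z
    exact ⟨((m : ℤ) : T), hm _ m (by simp)⟩
  have hker : RingHom.ker ψ = I := by
    ext t
    rw [RingHom.mem_ker, h0]
  have e : (T ⧸ I) ≃+* ZMod c :=
    (Ideal.quotEquivOfEq hker.symm).trans (RingHom.quotientKerEquivOfSurjective hsurj)
  rw [Nat.card_congr e.toEquiv, Nat.card_zmod]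

variable (p : ℕ) [Fact p.Prime]

theorem quot_aux_cong (t : TT p) : ∃ m : ℤ, t - ((m : ℤ) : TT p) ∈ II p := by
  obtain ⟨f, rfl⟩ := phi_surjective p t
  exact ⟨ev p f, phi_sub_ev_mem p f⟩

theorem exists_index : ∃ c : ℕ, ∀ m : ℤ, ((m : ℤ) : TT p) ∈ II p ↔ (c : ℤ) ∣ m :=
  quot_aux_index (II p)

theorem exists_psi (c : ℕ) (hc : ∀ m : ℤ, ((m : ℤ) : TT p) ∈ II p ↔ (c : ℤ) ∣ m) :
    ∃ ψ : TT p →+* ZMod c, (∀ t : TT p, ψ t = 0 ↔ t ∈ II p) ∧
      ∀ f : HeckeAlg, ψ (phi p f) = ((ev p f : ℤ) : ZMod c) := by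
  obtain ⟨ψ, h0, hm⟩ := quot_aux_psi (II p) c hc (quot_aux_cong p)
  exact ⟨ψ, h0, fun f => hm _ _ (phi_sub_ev_mem p f)⟩

theorem card_quotient (c : ℕ) (hc : ∀ m : ℤ, ((m : ℤ) : TT p) ∈ II p ↔ (c : ℤ) ∣ m) :
    Nat.card (TT p ⧸ II p) = c :=
  quot_aux_card (II p) c hc (quot_aux_cong p)

end Fermat.Agent.S16.DU
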