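import Fermat.Agent.S16.DUIdeal.Surj

/-!
# S16, block DU-ideal, leaf (B), hedge copy: `T / I ≅ ℤ / c`
-/

set_option autoImplicit false

open ModularCurve CuspForm

namespace Fermat.Agent.S16.DUAlt

open Fermat.Agent.S16.DU

variable (p : ℕ) [Fact p.Prime]

theorem exists_index : ∃ c : ℕ, ∀ m : ℤ, ((m : ℤ) : TT p) ∈ II p ↔ (c : ℤ) ∣ m := by
  refine ⟨(Submodule.IsPrincipal.generator
    (Ideal.comap (Int.castRingHom (TT p)) (II p))).natAbs, fun m => ?_⟩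
  rw [Int.natAbs_dvd, ← Submodule.IsPrincipal.mem_iff_generator_dvd, Ideal.mem_comap]
  rfl

/-- Every class of `T ⧸ I` is the class of an integer. -/
theorem quotalt_exists_int (x : TT p ⧸ II p) : ∃ m : ℤ, ((m : ℤ) : TT p ⧸ II p) = x := by
  obtain ⟨t, rfl⟩ := Ideal.Quotient.mk_surjective x
  obtain ⟨f, rfl⟩ := phi_surjective p t
  refine ⟨ev p f, ?_⟩
  have h := phi_sub_ev_mem p f
  rw [← Ideal.Quotient.eq] at h
  rw [h, map_intCast]

theorem quotalt_charP (c : ℕ) (hc : ∀ m : ℤ, ((m : ℤ) : TT p) ∈ II p ↔ (c : ℤ) ∣ m) :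
    CharP (TT p ⧸ II p) c := by
  refine ⟨fun n => ?_⟩
  have h := hc (n : ℤ)
  rw [Int.natCast_dvd_natCast] at h
  rw [← h, ← Ideal.Quotient.eq_zero_iff_mem, map_intCast, Int.cast_natCast]

/-- The ring isomorphism `ZMod c ≃+* T ⧸ I`. -/
theorem quotalt_exists_equiv (c : ℕ)
    (hc : ∀ m : ℤ, ((m : ℤ) : TT p) ∈ II p ↔ (c : ℤ) ∣ m) :
    ∃ e : ZMod c ≃+* (TT p ⧸ II p), ∀ m : ℤ, e (m : ZMod c) = ((m : ℤ) : TT p ⧸ II p) := by
  have := quotalt_charP p c hc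
  have hinj : Function.Injective (ZMod.castHom (dvd_refl c) (TT p ⧸ II p)) :=
    ZMod.castHom_injective _
  have hsurj : Function.Surjective (ZMod.castHom (dvd_refl c) (TT p ⧸ II p)) := by
    intro x
    obtain ⟨m, rfl⟩ := quotalt_exists_int p x
    exact ⟨(m : ZMod c), map_intCast _ m⟩
  refine ⟨RingEquiv.ofBijective _ ⟨hinj, hsurj⟩, fun m => ?_⟩
  exact map_intCast _ m

theorem exists_psi (c : ℕ) (hc : ∀ m : ℤ, ((m : ℤ) : TT p) ∈ II p ↔ (c : ℤ) ∣ m) :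
    ∃ ψ : TT p →+* ZMod c, (∀ t : TT p, ψ t = 0 ↔ t ∈ II p) ∧
      ∀ f : HeckeAlg, ψ (phi p f) = ((ev p f : ℤ) : ZMod c) := by
  obtain ⟨e, he⟩ := quotalt_exists_equiv p c hc
  refine ⟨e.symm.toRingHom.comp (Ideal.Quotient.mk (II p)), fun t => ?_, fun f => ?_⟩
  · show e.symm (Ideal.Quotient.mk (II p) t) = 0 ↔ t ∈ II p
    rw [map_eq_zero_iff _ e.symm.injective, Ideal.Quotient.eq_zero_iff_mem]
  · show e.symm (Ideal.Quotient.mk (II p) (phi p f)) = ((ev p f : ℤ) : ZMod c)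
    rw [RingEquiv.symm_apply_eq, he]
    have h := phi_sub_ev_mem p f
    rw [← Ideal.Quotient.eq] at h
    rw [h, map_intCast]

theorem card_quotient (c : ℕ) (hc : ∀ m : ℤ, ((m : ℤ) : TT p) ∈ II p ↔ (c : ℤ) ∣ m) :
    Nat.card (TT p ⧸ II p) = c := by
  obtain ⟨e, -⟩ := quotalt_exists_equiv p c hc
  rw [← Nat.card_congr e.toEquiv, Nat.card_zmod]

end Fermat.Agent.S16.DUAlt
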