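import Fermat.Agent.S16.DUIdeal.Defs
import Fermat.Agent.S20

/-!
# S16, block DU-ideal, leaf (F): small primes (`S₂(Γ₀(p)) = 0`)

FROZEN STATEMENTS (replace the `sorry`s only; add helper lemmas freely above them).

Maths. `finrank = 0` ⇒ the space of cusp forms is trivial (`Module.finrank_zero_iff` needs
finite-dimensionality: it follows from `Fermat.Agent.S20.result` for the five primes, or from
Mathlib's finite-dimensionality of cusp forms; alternatively use that the *rank* is zero) ⇒
`Lam p` is a subsingleton ⇒ `Module.End ℤ (Lam p)` and hence `TT p` are subsingletons ⇒ the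
quotient is a subsingleton nonempty type, `Nat.card = 1` (`Nat.card_unique` / `Nat.card_eq_one_iff_unique`).
For `p ∈ {2,3,5,7,13}`: `Fermat.Agent.S20.result p : (finrank : ℚ) = ModularCurve.genusFormula p`
and `genusFormula p = 0` by evaluating `dedekindPsi`, `nuTwo`, `nuThree`, `cuspCount`
(Fermat/Prelude/Def_ModularCurve_GenusNumerics.lean; see Fermat/Agent/S20/Numerics.lean for
existing evaluation lemmas; `decide`/`norm_num [..]`/`simp` after unfolding).
-/

set_option autoImplicit false

open ModularCurve CuspForm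

namespace Fermat.Agent.S16.DU

/-- The inclusion of cusp forms into modular forms, as a linear map. -/
noncomputable def smallIncl (N : ℕ) :
    CuspForm (CongruenceSubgroup.Gamma0 N) 2 →ₗ[ℂ] ModularForm (Fermat.Agent.S23.Gam N) 2 where
  toFun f :=
    { toSlashInvariantForm := f.toSlashInvariantForm
      holo' := f.holo'
      bdd_at_cusps' := fun hc g hg => (f.zero_at_cusps' hc g hg).boundedAtFilter }
  map_add' _ _ := rfl
  map_smul' _ _ := rfl

theorem smallIncl_injective (N : ℕ) : Function.Injective (smallIncl N) := by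
  intro f g h
  ext z
  exact congrArg (fun F : ModularForm (Fermat.Agent.S23.Gam N) 2 => F z) h

theorem small_nuTwo (N : ℕ) [NeZero N] :
    nuTwo N = Fintype.card {x : ZMod N // x ^ 2 + 1 = 0} := Nat.card_eq_fintype_card

theorem small_nuThree (N : ℕ) [NeZero N] :
    nuThree N = Fintype.card {x : ZMod N // x ^ 2 + x + 1 = 0} := Nat.card_eq_fintype_card

theorem small_psi_prime (p : ℕ) (hp : p.Prime) : dedekindPsi p = p + 1 := by
  have h1 : p ≠ 1 := hp.ne_one
  have h2 : Squarefree p := hp.prime.squarefree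
  have h3 : p / p = 1 := Nat.div_self hp.pos
  unfold dedekindPsi
  rw [Nat.Prime.divisors hp, Finset.filter_insert, Finset.filter_singleton]
  simp [h2, h1.symm, h3]

theorem small_cusp_prime (p : ℕ) (hp : p.Prime) : cuspCount p = 2 := by
  have h1 : p ≠ 1 := hp.ne_one
  have h3 : p / p = 1 := Nat.div_self hp.pos
  unfold cuspCount
  rw [Nat.Prime.divisors hp, Finset.sum_insert (by simpa using h1.symm), Finset.sum_singleton]
  simp [h3]

theorem genusFormula_small (p : ℕ) (hp : p = 2 ∨ p = 3 ∨ p = 5 ∨ p = 7 ∨ p = 13) :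
    ModularCurve.genusFormula p = 0 := by
  unfold genusFormula
  rcases hp with rfl | rfl | rfl | rfl | rfl
  · rw [small_psi_prime 2 (by norm_num), small_cusp_prime 2 (by norm_num), small_nuTwo,
      small_nuThree]
    have h2 : Fintype.card {x : ZMod 2 // x ^ 2 + 1 = 0} = 1 := by decide
    have h3 : Fintype.card {x : ZMod 2 // x ^ 2 + x + 1 = 0} = 0 := by decide
    rw [h2, h3]; norm_num
  · rw [small_psi_prime 3 (by norm_num), small_cusp_prime 3 (by norm_num), small_nuTwo,
      small_nuThree]
    have h2 : Fintype.card {x : ZMod 3 // x ^ 2 + 1 = 0} = 0 := by decide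
    have h3 : Fintype.card {x : ZMod 3 // x ^ 2 + x + 1 = 0} = 1 := by decide
    rw [h2, h3]; norm_num
  · rw [small_psi_prime 5 (by norm_num), small_cusp_prime 5 (by norm_num), small_nuTwo,
      small_nuThree]
    have h2 : Fintype.card {x : ZMod 5 // x ^ 2 + 1 = 0} = 2 := by decide
    have h3 : Fintype.card {x : ZMod 5 // x ^ 2 + x + 1 = 0} = 0 := by decide
    rw [h2, h3]; norm_num
  · rw [small_psi_prime 7 (by norm_num), small_cusp_prime 7 (by norm_num), small_nuTwo,
      small_nuThree]
    have h2 : Fintype.card {x : ZMod 7 // x ^ 2 + 1 = 0} = 0 := by decide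
    have h3 : Fintype.card {x : ZMod 7 // x ^ 2 + x + 1 = 0} = 2 := by decide
    rw [h2, h3]; norm_num
  · rw [small_psi_prime 13 (by norm_num), small_cusp_prime 13 (by norm_num), small_nuTwo,
      small_nuThree]
    have h2 : Fintype.card {x : ZMod 13 // x ^ 2 + 1 = 0} = 2 := by decide
    have h3 : Fintype.card {x : ZMod 13 // x ^ 2 + x + 1 = 0} = 2 := by decide
    rw [h2, h3]; norm_num

variable (p : ℕ) [Fact p.Prime]

theorem card_quotient_of_finrank_eq_zero
    (h : Module.finrank ℂ (CuspForm (CongruenceSubgroup.Gamma0 p) 2) = 0) :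
    Nat.card (TT p ⧸ II p) = 1 := by
  haveI : NeZero p := ⟨(Fact.out : p.Prime).ne_zero⟩
  have hfd := Fermat.Agent.S20.finiteDimensional_modularForm (N := p) 2
  have hfin : Module.Finite ℂ (CuspForm (CongruenceSubgroup.Gamma0 p) 2) :=
    Module.Finite.of_injective (smallIncl p) (smallIncl_injective p)
  have hs1 : Subsingleton (CuspForm (CongruenceSubgroup.Gamma0 p) 2) :=
    Module.finrank_zero_iff.mp h
  have hs2 : Subsingleton (Lam p) := ⟨fun a b => Subtype.ext (Subsingleton.elim _ _)⟩
  have hs3 : Subsingleton (Module.End ℤ (Lam p)) :=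
    ⟨fun a b => LinearMap.ext fun x => Subsingleton.elim _ _⟩
  have hs4 : Subsingleton (TT p) := ⟨fun a b => Subtype.ext (Subsingleton.elim _ _)⟩
  have hs5 : Subsingleton (TT p ⧸ II p) :=
    ⟨fun a b => by
      obtain ⟨a, rfl⟩ := Ideal.Quotient.mk_surjective a
      obtain ⟨b, rfl⟩ := Ideal.Quotient.mk_surjective b
      rw [Subsingleton.elim a b]⟩
  exact Nat.card_eq_one_iff_unique.mpr ⟨inferInstance, ⟨0⟩⟩

theorem finrank_eq_zero_of_small (hp : p = 2 ∨ p = 3 ∨ p = 5 ∨ p = 7 ∨ p = 13) :
    Module.finrank ℂ (CuspForm (CongruenceSubgroup.Gamma0 p) 2) = 0 := by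
  haveI : NeZero p := ⟨(Fact.out : p.Prime).ne_zero⟩
  have h := Fermat.Agent.S20.result p
  rw [genusFormula_small p hp] at h
  exact_mod_cast h

theorem eisensteinNumerator_of_small (hp : p = 2 ∨ p = 3 ∨ p = 5 ∨ p = 7 ∨ p = 13) :
    eisensteinNumerator p = 1 := by
  rcases hp with rfl | rfl | rfl | rfl | rfl <;> decide

end Fermat.Agent.S16.DU
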