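import Fermat.Agent.S16.DUIdeal.Surj
import Fermat.Agent.S16.DUIdeal.Quot
import Fermat.Agent.S16.DUIdeal.Coeff
import Fermat.Agent.S16.DUIdeal.Sigma
import Fermat.Agent.S16.DUIdeal.Lower
import Fermat.Agent.S16.DUIdeal.Small

/-!
# S16, block DU-ideal (owner helper13): all statements of the block (aggregator)

(A) `phi_surjective`, `phi_sub_ev_mem`, `mem_II_iff`            -- DUIdeal/Surj.lean
(B) `exists_index`, `exists_psi`, `card_quotient`               -- DUIdeal/Quot.lean
(C) `aco_act_phi_X_of_ne`, `aco_act_phi_X_self`                 -- DUIdeal/Coeff.lean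
(D) `sigmaPZ_one`, `sigmaPZ_mul_self`, `sigmaPZ_mul_prime`         -- DUIdeal/Sigma.lean
(E) `numerator_dvd_of_mem`                                      -- DUIdeal/Lower.lean
(F) `card_quotient_of_finrank_eq_zero`, `finrank_eq_zero_of_small`,
    `eisensteinNumerator_of_small`                              -- DUIdeal/Small.lean
-/
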