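import Fermat.Agent.S16.DUIdeal.Defs

/-!
# S16, block DU-ideal, leaf (A): `φ` is surjective; every `t : T` is congruent to an integer mod `I`

FROZEN STATEMENTS (replace the `sorry`s only; add helper lemmas freely above them).

Maths. `heckeAlgebra p 2 ∅ = Algebra.adjoin ℤ (heckeGenerators p 2 ∅)` and every generator is
`heckeFormsGen p 2 ℓ` for a prime `ℓ` (`T_ℓ` if `ℓ ∤ p`, `U_ℓ` if `ℓ ∣ p`), so the range of
`heckeEvalForms p 2 = aeval (heckeFormsGen p 2)` is everything (`Algebra.adjoin_le` / `adjoin_induction`);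
`latticeRestrictHom_surjective` finishes `phi_surjective`.
`f - C (ev f) ∈ eisensteinIdeal p = ker (aeval (eisensteinSystem p))` (`mem_eigenIdeal_iff`), and
`phi (C m) = (m : T)`; so `phi f - ev f ∈ II p` (`Ideal.mem_map_of_mem`).
`mem_II_iff`: `Ideal.mem_map_iff_of_surjective` with `phi_surjective`.
-/

set_option autoImplicit false

open ModularCurve CuspForm

namespace Fermat.Agent.S16.DU

variable (p : ℕ) [Fact p.Prime]

theorem surj_aux_heckeEvalForms (N : ℕ) [NeZero N] (k : ℤ) :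
    Function.Surjective (heckeEvalForms N k) := by
  intro t
  set A : Subalgebra ℤ (heckeAlgebra N k ∅) :=
    (MvPolynomial.aeval (R := ℤ) (heckeFormsGen N k)).range with hA
  have hgen : ∀ ℓ : Nat.Primes, heckeFormsGen N k ℓ ∈ A := fun ℓ =>
    ⟨MvPolynomial.X ℓ, MvPolynomial.aeval_X _ ℓ⟩
  have hle : heckeAlgebra N k ∅ ≤ A.map (heckeAlgebra N k ∅).val := by
    refine Algebra.adjoin_le ?_
    rintro T (⟨ℓ, hℓ, hℓN, -, rfl⟩ | ⟨q, hqN, hq, -, rfl⟩)
    · refine ⟨heckeFormsGen N k ⟨ℓ, hℓ⟩, hgen _, ?_⟩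
      rw [heckeFormsGen_of_not_dvd (ℓ := ⟨ℓ, hℓ⟩) hℓN]
      rfl
    · refine ⟨heckeFormsGen N k ⟨q, hq⟩, hgen _, ?_⟩
      rw [heckeFormsGen_of_dvd (q := ⟨q, hq⟩) hqN]
      rfl
  obtain ⟨a, ⟨f, hf⟩, hat⟩ := hle t.2
  refine ⟨f, ?_⟩
  have : a = t := Subtype.ext hat
  rw [← this, ← hf]
  rfl

theorem phi_surjective : Function.Surjective (phi p) := by
  intro t
  obtain ⟨s, hs⟩ := latticeRestrictHom_surjective p ∅ t
  obtain ⟨f, hf⟩ := surj_aux_heckeEvalForms p 2 s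
  refine ⟨f, ?_⟩
  rw [← hs, ← hf]
  rfl

theorem surj_aux_phi_C (m : ℤ) : phi p (MvPolynomial.C m) = (m : TT p) := by
  have h1 : phi p (MvPolynomial.C m) =
      latticeRestrictHom p ∅ (heckeEvalForms p 2 (MvPolynomial.C m)) := rfl
  rw [h1, heckeEvalForms_C, AlgHom.commutes]
  simp

omit [Fact p.Prime] in
theorem surj_aux_mem_eisensteinIdeal (f : HeckeAlg) : f ∈ eisensteinIdeal p ↔ ev p f = 0 :=
  mem_eigenIdeal_iff _ f

theorem phi_sub_ev_mem (f : HeckeAlg) : phi p f - ((ev p f : ℤ) : TT p) ∈ II p := by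
  have hmem : f - MvPolynomial.C (ev p f) ∈ eisensteinIdeal p := by
    rw [surj_aux_mem_eisensteinIdeal, map_sub]
    have : ev p (MvPolynomial.C (ev p f)) = ev p f := by
      simp [ev]
    rw [this, sub_self]
  have := Ideal.mem_map_of_mem (phi p) hmem
  rwa [map_sub, surj_aux_phi_C] at this

theorem mem_II_iff (t : TT p) : t ∈ II p ↔ ∃ f : HeckeAlg, ev p f = 0 ∧ phi p f = t := by
  rw [II, Ideal.mem_map_iff_of_surjective (phi p) (phi_surjective p)]
  constructor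
  · rintro ⟨f, hf, rfl⟩
    exact ⟨f, (surj_aux_mem_eisensteinIdeal p f).mp hf, rfl⟩
  · rintro ⟨f, hf, rfl⟩
    exact ⟨f, (surj_aux_mem_eisensteinIdeal p f).mpr hf, rfl⟩

end Fermat.Agent.S16.DU
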